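/-
Existence and conjugacy of places over a prime in a Galois extension of ℚ, surjectivity of the
decomposition group onto the automorphisms of the residue field, existence of Frobenius elements.
-/
import Mathlib
import Fermat.Prelude.Def_FLTPrelim_Ramification
import Fermat.Prelude.Def_EllipticCurve_FrobeniusTrace

set_option autoImplicit false

open scoped Pointwise
open Polynomial

namespace Fermat.Agent.Frobenius

universe u

/-- Key trick: if `x` is a root of a polynomial over an integrally closed subring `B` some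
coefficient of which avoids the prime `Q`, then `x` or `x⁻¹` becomes integral after localising
at `Q`. -/
theorem exists_smul_mem_or_of_root {R L : Type*} [CommRing R] [Field L] [Algebra R L]
    (Q : Ideal (integralClosure R L)) :
    ∀ (n : ℕ) (f : (integralClosure R L)[X]) (x : L), f.natDegree ≤ n → aeval x f = 0 →
      (∃ i, f.coeff i ∉ Q) →
      ∃ s : integralClosure R L, s ∉ Q ∧
        (IsIntegral R ((s : L) * x) ∨ IsIntegral R ((s : L) * x⁻¹)) := by
  intro n
  induction n with
  | zero =>
    intro f x hn hx hi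
    obtain ⟨c, rfl⟩ : ∃ c, f = C c := ⟨f.coeff 0, eq_C_of_natDegree_le_zero hn⟩
    obtain ⟨i, hi⟩ := hi
    have hc : c = 0 := by simpa using hx
    exact absurd (by simp [hc]) hi
  | succ n ih =>
    intro f x hn hx hi
    obtain ⟨b, hb⟩ : ∃ b : integralClosure R L, (b : L) = (f.coeff (n + 1) : L) * x := by
      rcases hn.eq_or_lt with h | h
      · have h1 := isIntegral_leadingCoeff_smul f x hx
        rw [Polynomial.leadingCoeff, h, Algebra.smul_def] at h1
        exact ⟨⟨_, isIntegral_trans (R := R) _ h1⟩, rfl⟩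
      · exact ⟨0, by simp [f.coeff_eq_zero_of_natDegree_lt h]⟩
    by_cases ha : f.coeff (n + 1) ∈ Q
    swap
    · exact ⟨f.coeff (n + 1), ha, .inl (hb ▸ b.2)⟩
    let g := f - C (f.coeff (n + 1)) * X ^ (n + 1) + C b * X ^ n
    have hgdeg : g.natDegree ≤ n := by
      rw [natDegree_le_iff_coeff_eq_zero]
      intro m hm
      rcases (Nat.succ_le_of_lt hm).eq_or_lt with rfl | h
      · simp [g, coeff_C_mul, coeff_X_pow]
      · have h1 : f.coeff m = 0 := f.coeff_eq_zero_of_natDegree_lt (by omega)
        simp [g, coeff_C_mul, coeff_X_pow, h1, show m ≠ n + 1 by omega, show m ≠ n by omega]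
    have hgx : aeval x g = 0 := by
      simp only [g, map_add, map_sub, map_mul, map_pow, aeval_C, aeval_X, hx]
      have h1 : algebraMap (integralClosure R L) L b = (b : L) := rfl
      have h2 : algebraMap (integralClosure R L) L (f.coeff (n + 1)) = (f.coeff (n + 1) : L) := rfl
      rw [h1, h2, hb]; ring
    obtain ⟨i, hi⟩ := hi
    have hin : i ≤ n := by
      by_contra h
      rcases (Nat.succ_le_of_lt (not_le.1 h)).eq_or_lt with rfl | h'
      · exact hi ha
      · exact hi (by rw [f.coeff_eq_zero_of_natDegree_lt (by omega)]; exact Q.zero_mem)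
    by_cases hbQ : b ∈ Q
    · refine ih g x hgdeg hgx ⟨i, ?_⟩
      have h1 : g.coeff i = f.coeff i + (if i = n then b else 0) := by
        simp [g, coeff_C_mul, coeff_X_pow, show i ≠ n + 1 by omega]
      rw [h1]
      split_ifs
      · rwa [Ideal.add_mem_iff_left _ hbQ]
      · rwa [add_zero]
    · refine ⟨b, hbQ, .inr ?_⟩
      by_cases hx0 : x = 0
      · simp [hx0, isIntegral_zero]
      · rw [hb, mul_inv_cancel_right₀ hx0]
        exact (f.coeff (n + 1)).2

variable {L : Type u} [Field L]

/-- A valuation subring contains all algebraic integers. -/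
theorem mem_of_isIntegral (A : ValuationSubring L) {x : L} (hx : IsIntegral ℤ x) : x ∈ A := by
  have h : IsIntegral A x := hx.tower_top
  obtain ⟨y, hy⟩ := IsIntegrallyClosed.isIntegral_iff.1 h
  exact hy ▸ y.2

/-- The inclusion of the ring of algebraic integers in a valuation subring. -/
noncomputable def intIncl (A : ValuationSubring L) : integralClosure ℤ L →+* A where
  toFun x := ⟨x, mem_of_isIntegral A x.2⟩
  map_one' := rfl
  map_mul' _ _ := rfl
  map_zero' := rfl
  map_add' _ _ := rfl

/-- The centre of a valuation subring on the ring of algebraic integers. -/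
noncomputable def centre (A : ValuationSubring L) : Ideal (integralClosure ℤ L) :=
  (IsLocalRing.maximalIdeal A).comap (intIncl A)

instance centre_isPrime (A : ValuationSubring L) : (centre A).IsPrime :=
  inferInstanceAs ((IsLocalRing.maximalIdeal A).comap (intIncl A)).IsPrime

theorem mem_centre {A : ValuationSubring L} {x : integralClosure ℤ L} :
    x ∈ centre A ↔ (x : L) ∈ A.nonunits := by
  exact (ValuationSubring.coe_mem_nonunits_iff (a := intIncl A x)).symm

theorem natCast_mem_centre {A : ValuationSubring L} {q : ℕ} (hA : A.LiesOverPrime q) :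
    (q : integralClosure ℤ L) ∈ centre A := by
  rw [mem_centre]
  simpa [ValuationSubring.LiesOverPrime] using hA

theorem centre_under {A : ValuationSubring L} {q : ℕ} (hq : q.Prime) (hA : A.LiesOverPrime q) :
    (centre A).under ℤ = Ideal.span {(q : ℤ)} := by
  have h : (Ideal.span {(q : ℤ)}).IsMaximal :=
    PrincipalIdealRing.isMaximal_of_irreducible (Int.prime_iff_natAbs_prime.2 (by simpa)).irreducible
  refine (h.eq_of_le (Ideal.IsPrime.ne_top inferInstance) ?_).symm
  rw [Ideal.span_singleton_le_iff_mem, Ideal.under, Ideal.mem_comap]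
  simpa using natCast_mem_centre hA

theorem liesOver_span {A : ValuationSubring L} {q : ℕ} (hq : q.Prime) (hA : A.LiesOverPrime q) :
    (centre A).LiesOver (Ideal.span {(q : ℤ)}) :=
  ⟨(centre_under hq hA).symm⟩

theorem centre_isMaximal {A : ValuationSubring L} {q : ℕ} (hq : q.Prime)
    (hA : A.LiesOverPrime q) : (centre A).IsMaximal := by
  refine Ideal.isMaximal_of_isIntegral_of_isMaximal_comap (R := ℤ) _ ?_
  rw [← Ideal.under, centre_under hq hA]
  exact PrincipalIdealRing.isMaximal_of_irreducible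
    (Int.prime_iff_natAbs_prime.2 (by simpa)).irreducible

/-- Every prime `q` lies under a place of `L`. -/
theorem exists_liesOverPrime (L : Type u) [Field L] [CharZero L] {q : ℕ} (hq : q.Prime) :
    ∃ A : ValuationSubring L, A.LiesOverPrime q := by
  let R : Subring L := (Int.castRingHom L).range
  let x : R := ⟨(q : L), ⟨q, by simp⟩⟩
  have hne : Ideal.span {x} ≠ ⊤ := by
    rw [Ne, Ideal.span_singleton_eq_top, isUnit_iff_exists_inv]
    rintro ⟨⟨_, m, rfl⟩, hm⟩
    have h1 : (q : L) * (m : L) = 1 := congrArg Subtype.val hm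
    have h2 : (q : ℤ) * m = 1 := by exact_mod_cast h1
    have h3 : q = 1 := by simpa using Int.eq_one_of_mul_eq_one_right (by positivity) h2
    exact hq.ne_one h3
  obtain ⟨A, -, hA⟩ := Ideal.image_subset_nonunits_valuationSubring _ hne
  exact ⟨A, hA ⟨x, Ideal.subset_span rfl, rfl⟩⟩

section Algebraic

variable [CharZero L] [Algebra ℚ L] [Algebra.IsAlgebraic ℚ L]

/-- A place over `q` is the localisation of the algebraic integers at its centre. -/
theorem exists_den {A : ValuationSubring L} {q : ℕ} (hq : q.Prime) (hA : A.LiesOverPrime q)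
    {x : L} (hx : x ∈ A) :
    ∃ s : integralClosure ℤ L, s ∉ centre A ∧ IsIntegral ℤ ((s : L) * x) := by
  by_cases hx0 : x = 0
  · refine ⟨1, fun h => (centre_isPrime A).ne_top ((Ideal.eq_top_iff_one _).2 h), ?_⟩
    simp [hx0, isIntegral_zero]
  have halg : IsAlgebraic ℤ x :=
    (IsFractionRing.isAlgebraic_iff ℤ ℚ L).2 (Algebra.IsAlgebraic.isAlgebraic x)
  obtain ⟨f, hf0, hfx⟩ := halg
  have hg : aeval x f.primPart = 0 := aeval_primPart_eq_zero hf0 hfx
  obtain ⟨i, hi⟩ : ∃ i, ¬ ((q : ℤ) ∣ f.primPart.coeff i) := by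
    by_contra! h
    have h1 : C (q : ℤ) ∣ f.primPart := C_dvd_iff_dvd_coeff _ _ |>.2 h
    have h2 : IsUnit (q : ℤ) := f.isPrimitive_primPart _ h1
    exact (Int.prime_iff_natAbs_prime.2 (by simpa) : Prime (q : ℤ)).not_isUnit h2
  have hg' : aeval x (f.primPart.map (algebraMap ℤ (integralClosure ℤ L))) = 0 := by
    rwa [aeval_map_algebraMap]
  have hi' : (f.primPart.map (algebraMap ℤ (integralClosure ℤ L))).coeff i ∉ centre A := by
    rw [coeff_map, ← Ideal.mem_comap, ← Ideal.under, centre_under hq hA,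
      Ideal.mem_span_singleton]
    exact hi
  obtain ⟨s, hs, h | h⟩ := exists_smul_mem_or_of_root (centre A) _ _ x le_rfl hg' ⟨i, hi'⟩
  · exact ⟨s, hs, h⟩
  · refine ⟨⟨_, h⟩, fun hb => hs ?_, ?_⟩
    · rw [mem_centre] at hb ⊢
      rw [ValuationSubring.mem_nonunits_iff] at hb ⊢
      have h2 : A.valuation x ≤ 1 := (A.valuation_le_one_iff x).2 hx
      have h1 : A.valuation (s : L) = A.valuation ((s : L) * x⁻¹) * A.valuation x := by
        rw [← map_mul, inv_mul_cancel_right₀ hx0]
      rw [h1]
      exact (mul_le_of_le_one_right' h2).trans_lt hb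
    · change IsIntegral ℤ ((s : L) * x⁻¹ * x)
      rw [inv_mul_cancel_right₀ hx0]
      exact s.2

/-- A place over `q` is determined by its centre on the algebraic integers. -/
theorem eq_of_centre_le {A A' : ValuationSubring L} {q : ℕ} (hq : q.Prime)
    (hA : A.LiesOverPrime q) (hA' : A'.LiesOverPrime q) (h : centre A ≤ centre A') : A = A' := by
  have heq : centre A = centre A' :=
    (centre_isMaximal hq hA).eq_of_le (Ideal.IsPrime.ne_top inferInstance) h
  suffices key : ∀ {B B' : ValuationSubring L}, B.LiesOverPrime q → centre B' = centre B →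
      B ≤ B' from le_antisymm (key hA heq.symm) (key hA' heq)
  intro B B' hB hBB' x hx
  obtain ⟨s, hs, hsx⟩ := exists_den hq hB hx
  rw [← hBB', mem_centre, ValuationSubring.mem_nonunits_iff, not_lt] at hs
  have hs1 : B'.valuation (s : L) = 1 :=
    le_antisymm ((B'.valuation_le_one_iff _).2 (mem_of_isIntegral B' s.2)) hs
  have h1 : B'.valuation ((s : L) * x) ≤ 1 :=
    (B'.valuation_le_one_iff _).2 (mem_of_isIntegral B' hsx)
  rw [map_mul, hs1, one_mul] at h1
  exact (B'.valuation_le_one_iff _).1 h1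

/-- The residue field of a place over `q` is the residue ring of the algebraic integers. -/
theorem residue_intIncl_surjective {A : ValuationSubring L} {q : ℕ} (hq : q.Prime)
    (hA : A.LiesOverPrime q) :
    Function.Surjective ((IsLocalRing.residue A).comp (intIncl A)) := by
  intro y
  obtain ⟨⟨x, hx⟩, rfl⟩ := IsLocalRing.residue_surjective y
  obtain ⟨s, hs, hsx⟩ := exists_den hq hA hx
  obtain ⟨t, i, hi, ht⟩ := (centre_isMaximal hq hA).exists_inv hs
  refine ⟨t * ⟨_, hsx⟩, ?_⟩
  have h0 : IsLocalRing.residue A (intIncl A i) = 0 :=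
    (IsLocalRing.residue_eq_zero_iff _).2 hi
  have h2 : intIncl A ⟨_, hsx⟩ = intIncl A s * ⟨x, hx⟩ := Subtype.ext rfl
  have h1 := congrArg ((IsLocalRing.residue A).comp (intIncl A)) ht
  simp only [RingHom.comp_apply, map_add, map_mul, map_one, h0, add_zero] at h1
  simp only [RingHom.comp_apply, map_mul, h2]
  rw [← mul_assoc, h1, one_mul]

omit [CharZero L] [Algebra ℚ L] [Algebra.IsAlgebraic ℚ L] in
/-- The residue field of a place over `q` has characteristic `q`. -/
theorem residueField_charP {A : ValuationSubring L} {q : ℕ} (hq : q.Prime)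
    (hA : A.LiesOverPrime q) : CharP (IsLocalRing.ResidueField A) q := by
  refine (CharP.charP_iff_prime_eq_zero hq).2 ?_
  rw [← map_natCast (IsLocalRing.residue A), IsLocalRing.residue_eq_zero_iff,
    ← ValuationSubring.coe_mem_nonunits_iff]
  simpa [ValuationSubring.LiesOverPrime] using hA

/-- The residue field of a place over `q` is algebraic over the prime field. -/
theorem residueField_isIntegral {A : ValuationSubring L} {q : ℕ} (hq : q.Prime)
    (hA : A.LiesOverPrime q) (y : IsLocalRing.ResidueField A) : IsIntegral ℤ y := by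
  obtain ⟨b, rfl⟩ := residue_intIncl_surjective hq hA y
  exact map_isIntegral_int ((IsLocalRing.residue A).comp (intIncl A))
    (integralClosure.AlgebraIsIntegral.isIntegral b)

end Algebraic

section Galois

variable [CharZero L] [Algebra ℚ L]

omit [CharZero L] in
theorem smul_mem_centre {A : ValuationSubring L} (g : L ≃ₐ[ℚ] L) (x : integralClosure ℤ L) :
    g • x ∈ centre (g • A) ↔ x ∈ centre A := by
  have h0 : ∀ y : L, y = 0 ↔ g • y = 0 := fun y => (smul_eq_zero_iff_eq g).symm
  rw [mem_centre, mem_centre, ValuationSubring.mem_nonunits_iff_or,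
    ValuationSubring.mem_nonunits_iff_or, integralClosure.coe_smul, ← h0,
    ← smul_inv'', ValuationSubring.smul_mem_pointwise_smul_iff]

omit [CharZero L] in
theorem liesOverPrime_smul {A : ValuationSubring L} {q : ℕ} (hA : A.LiesOverPrime q)
    (g : L ≃ₐ[ℚ] L) : (g • A).LiesOverPrime q := by
  have h := (smul_mem_centre (A := A) g _).2 (natCast_mem_centre hA)
  rw [mem_centre, integralClosure.coe_smul] at h
  simpa [ValuationSubring.LiesOverPrime, AlgEquiv.smul_def] using h

omit [CharZero L] in
theorem centre_smul (A : ValuationSubring L) (g : L ≃ₐ[ℚ] L) :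
    centre (g • A) = g • centre A := by
  ext x
  rw [Ideal.mem_pointwise_smul_iff_inv_smul_mem, ← smul_mem_centre g (g⁻¹ • x), smul_inv_smul]

variable [IsGalois ℚ L]

omit [CharZero L] in
theorem isInvariant_integralClosure :
    Algebra.IsInvariant ℤ (integralClosure ℤ L) (L ≃ₐ[ℚ] L) := by
  refine ⟨fun b hb => ?_⟩
  obtain ⟨r, hr⟩ : (b : L) ∈ Set.range (algebraMap ℚ L) :=
    (InfiniteGalois.mem_range_algebraMap_iff_fixed _).2 fun g => congrArg Subtype.val (hb g)
  have h1 : IsIntegral ℤ (b : L) := b.2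
  rw [← hr, isIntegral_algebraMap_iff (algebraMap ℚ L).injective] at h1
  obtain ⟨m, rfl⟩ := IsIntegrallyClosed.isIntegral_iff.1 h1
  refine ⟨m, Subtype.ext ?_⟩
  simpa using hr

/-- Two places over the same prime are conjugate. -/
theorem exists_smul_eq_of_liesOverPrime {q : ℕ} (hq : q.Prime) {A A' : ValuationSubring L}
    (hA : A.LiesOverPrime q) (hA' : A'.LiesOverPrime q) : ∃ g : L ≃ₐ[ℚ] L, g • A = A' := by
  have := isInvariant_integralClosure (L := L)
  let _ : TopologicalSpace (integralClosure ℤ L) := ⊥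
  have : DiscreteTopology (integralClosure ℤ L) := ⟨rfl⟩
  have : ContinuousSMul (L ≃ₐ[ℚ] L) (integralClosure ℤ L) := by
    refine continuousSMul_iff_stabilizer_isOpen.2 fun b => ?_
    have hs : MulAction.stabilizer (L ≃ₐ[ℚ] L) b = MulAction.stabilizer (L ≃ₐ[ℚ] L) (b : L) := by
      ext g; simp [MulAction.mem_stabilizer_iff, Subtype.ext_iff]
    rw [hs]; exact stabilizer_isOpen_of_isIntegral _
  obtain ⟨g, hg⟩ := Algebra.IsInvariant.exists_smul_of_under_eq_of_profinite (A := ℤ)
    (G := L ≃ₐ[ℚ] L) (centre A) (centre A') (by rw [centre_under hq hA, centre_under hq hA'])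
  refine ⟨g, eq_of_centre_le hq (liesOverPrime_smul hA g) hA' (le_of_eq ?_)⟩
  rw [centre_smul, hg]

/-- The decomposition group surjects onto the automorphisms of the residue field. -/
theorem exists_decomposition_smul_residue_eq {q : ℕ} (hq : q.Prime) {A : ValuationSubring L}
    (hA : A.LiesOverPrime q)
    (τ : IsLocalRing.ResidueField A ≃+* IsLocalRing.ResidueField A) :
    ∃ g : A.decompositionSubgroup ℚ, ∀ x, g • x = τ x := by
  have := isInvariant_integralClosure (L := L)
  let _ : TopologicalSpace (integralClosure ℤ L) := ⊥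
  have : DiscreteTopology (integralClosure ℤ L) := ⟨rfl⟩
  have : ContinuousSMul (L ≃ₐ[ℚ] L) (integralClosure ℤ L) := by
    refine continuousSMul_iff_stabilizer_isOpen.2 fun b => ?_
    have hs : MulAction.stabilizer (L ≃ₐ[ℚ] L) b = MulAction.stabilizer (L ≃ₐ[ℚ] L) (b : L) := by
      ext g; simp [MulAction.mem_stabilizer_iff, Subtype.ext_iff]
    rw [hs]; exact stabilizer_isOpen_of_isIntegral _
  have := liesOver_span hq hA
  have := centre_isMaximal hq hA
  let f : integralClosure ℤ L ⧸ centre A →+* IsLocalRing.ResidueField A :=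
    Ideal.Quotient.lift (centre A) ((IsLocalRing.residue A).comp (intIncl A))
      (fun a ha => (IsLocalRing.residue_eq_zero_iff _).2 ha)
  have hf : Function.Bijective f := by
    refine ⟨RingHom.lift_injective_of_ker_le_ideal _ _
      (fun a ha => (IsLocalRing.residue_eq_zero_iff _).1 ha), fun y => ?_⟩
    obtain ⟨b, rfl⟩ := residue_intIncl_surjective hq hA y
    exact ⟨Ideal.Quotient.mk _ b, rfl⟩
  let e := RingEquiv.ofBijective f hf
  let σ₀ := (e.trans τ).trans e.symm
  let σ : (integralClosure ℤ L ⧸ centre A) ≃ₐ[ℤ ⧸ Ideal.span {(q : ℤ)}]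
      (integralClosure ℤ L ⧸ centre A) :=
    AlgEquiv.ofRingEquiv (f := σ₀) (fun r => by
      obtain ⟨m, rfl⟩ := Ideal.Quotient.mk_surjective r
      exact RingHom.congr_fun (RingHom.ext_int
        (σ₀.toRingHom.comp ((algebraMap _ _).comp (Ideal.Quotient.mk (Ideal.span {(q : ℤ)}))))
        ((algebraMap _ _).comp (Ideal.Quotient.mk (Ideal.span {(q : ℤ)})))) m)
  obtain ⟨g, hg⟩ := Ideal.Quotient.stabilizerHom_surjective_of_profinite (G := L ≃ₐ[ℚ] L)
    (Ideal.span {(q : ℤ)}) (centre A) σ
  have hgA : (g : L ≃ₐ[ℚ] L) • A = A :=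
    eq_of_centre_le hq (liesOverPrime_smul hA _) hA (le_of_eq (by rw [centre_smul]; exact g.2))
  refine ⟨⟨g, hgA⟩, fun y => ?_⟩
  obtain ⟨b, rfl⟩ := residue_intIncl_surjective hq hA y
  have h1 := DFunLike.congr_fun hg (Ideal.Quotient.mk _ b)
  rw [Ideal.Quotient.stabilizerHom_apply] at h1
  have h2 := congrArg f h1
  rw [RingHom.comp_apply, ← IsLocalRing.ResidueField.residue_smul]
  refine Eq.trans ?_ (h2.trans ?_)
  · rfl
  · exact (e.apply_symm_apply _)

/-- Frobenius elements exist. -/
theorem exists_isFrobeniusAt {q : ℕ} (hq : q.Prime) {A : ValuationSubring L}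
    (hA : A.LiesOverPrime q) : ∃ σ : L ≃ₐ[ℚ] L, A.IsFrobeniusAt σ q := by
  have : Fact q.Prime := ⟨hq⟩
  have := residueField_charP hq hA
  let _ := ZMod.algebra (IsLocalRing.ResidueField A) q
  have : Algebra.IsAlgebraic (ZMod q) (IsLocalRing.ResidueField A) :=
    ⟨fun y => by
      obtain ⟨p, hp, hpy⟩ := residueField_isIntegral hq hA y
      refine IsIntegral.isAlgebraic ⟨p.map (Int.castRingHom (ZMod q)), hp.map _, ?_⟩
      rw [eval₂_map, RingHom.ext_int ((algebraMap (ZMod q) (IsLocalRing.ResidueField A)).comp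
        (Int.castRingHom (ZMod q))) (algebraMap ℤ (IsLocalRing.ResidueField A))]
      exact hpy⟩
  have hbij : Function.Bijective (frobenius (IsLocalRing.ResidueField A) q) := by
    have : PerfectField (IsLocalRing.ResidueField A) := Algebra.IsAlgebraic.perfectField (K := ZMod q)
    have : PerfectRing (IsLocalRing.ResidueField A) q := inferInstance
    exact bijective_frobenius _ _
  obtain ⟨g, hg⟩ := exists_decomposition_smul_residue_eq hq hA (RingEquiv.ofBijective _ hbij)
  exact ⟨g, g.2, fun x => hg x⟩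

/-- For every prime there is a place over it together with a Frobenius element. -/
theorem exists_liesOverPrime_and_isFrobeniusAt (L : Type u) [Field L] [CharZero L] [Algebra ℚ L]
    [IsGalois ℚ L] {q : ℕ} (hq : q.Prime) :
    ∃ (A : ValuationSubring L) (σ : L ≃ₐ[ℚ] L), A.LiesOverPrime q ∧ A.IsFrobeniusAt σ q := by
  obtain ⟨A, hA⟩ := exists_liesOverPrime L hq
  obtain ⟨σ, hσ⟩ := exists_isFrobeniusAt hq hA
  exact ⟨A, σ, hA, hσ⟩

end Galois

section QBar

/-- `AlgebraicClosure ℚ` is Galois over `ℚ` (for whichever `ℚ`-algebra structure unifies). -/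
theorem isGalois_qbar : IsGalois ℚ (AlgebraicClosure ℚ) := by
  have : Algebra.IsAlgebraic ℚ (AlgebraicClosure ℚ) := AlgebraicClosure.isAlgebraic ℚ
  have : IsAlgClosure ℚ (AlgebraicClosure ℚ) := ⟨inferInstance, inferInstance⟩
  have : Normal ℚ (AlgebraicClosure ℚ) := IsAlgClosure.normal ℚ (AlgebraicClosure ℚ)
  have : Algebra.IsSeparable ℚ (AlgebraicClosure ℚ) :=
    Algebra.IsAlgebraic.isSeparable_of_perfectField
  exact IsGalois.mk

/-- Frobenius elements exist at every place of `AlgebraicClosure ℚ` over a prime. -/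
theorem exists_isFrobeniusAt_qbar {q : ℕ} (hq : q.Prime)
    {A : ValuationSubring (AlgebraicClosure ℚ)} (hA : A.LiesOverPrime q) :
    ∃ σ : AlgebraicClosure ℚ ≃ₐ[ℚ] AlgebraicClosure ℚ, A.IsFrobeniusAt σ q :=
  haveI := isGalois_qbar
  exists_isFrobeniusAt hq hA

/-- For every prime there is a place of `AlgebraicClosure ℚ` over it with a Frobenius element. -/
theorem exists_liesOverPrime_and_isFrobeniusAt_qbar {q : ℕ} (hq : q.Prime) :
    ∃ (A : ValuationSubring (AlgebraicClosure ℚ))
      (σ : AlgebraicClosure ℚ ≃ₐ[ℚ] AlgebraicClosure ℚ),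
      A.LiesOverPrime q ∧ A.IsFrobeniusAt σ q :=
  haveI := isGalois_qbar
  exists_liesOverPrime_and_isFrobeniusAt (AlgebraicClosure ℚ) hq

/-- Two places of `AlgebraicClosure ℚ` over the same prime are conjugate. -/
theorem exists_smul_eq_of_liesOverPrime_qbar {q : ℕ} (hq : q.Prime)
    {A A' : ValuationSubring (AlgebraicClosure ℚ)} (hA : A.LiesOverPrime q)
    (hA' : A'.LiesOverPrime q) :
    ∃ g : AlgebraicClosure ℚ ≃ₐ[ℚ] AlgebraicClosure ℚ, g • A = A' :=
  haveI := isGalois_qbar
  exists_smul_eq_of_liesOverPrime hq hA hA'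

end QBar

section Inertia

variable {K : Type*} [Field K] [Algebra K L] {A : ValuationSubring L}

/-- The inertia group is the kernel of the action of the decomposition group on the residue
field. -/
theorem mem_inertiaSubgroupIn_iff {σ : L ≃ₐ[K] L} :
    σ ∈ A.inertiaSubgroupIn K ↔ ∃ h : σ ∈ A.decompositionSubgroup K,
      ∀ x : IsLocalRing.ResidueField A, (⟨σ, h⟩ : A.decompositionSubgroup K) • x = x := by
  rw [ValuationSubring.inertiaSubgroupIn, Subgroup.mem_map]
  constructor
  · rintro ⟨⟨g, hg⟩, hker, rfl⟩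
    exact ⟨hg, fun x => RingEquiv.congr_fun (MonoidHom.mem_ker.1 hker) x⟩
  · rintro ⟨h, hx⟩
    exact ⟨⟨σ, h⟩, MonoidHom.mem_ker.2 (RingEquiv.ext hx), rfl⟩

/-- Two Frobenius elements at the same place differ by an element of inertia. -/
theorem isFrobeniusAt_inv_mul_mem_inertia {σ σ' : L ≃ₐ[K] L} {q : ℕ}
    (h : A.IsFrobeniusAt σ q) (h' : A.IsFrobeniusAt σ' q) :
    σ⁻¹ * σ' ∈ A.inertiaSubgroupIn K := by
  obtain ⟨hσ, h1⟩ := h
  obtain ⟨hσ', h2⟩ := h'
  refine mem_inertiaSubgroupIn_iff.2
    ⟨mul_mem (inv_mem hσ) hσ', fun x => ?_⟩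
  have : (⟨σ⁻¹ * σ', mul_mem (inv_mem hσ) hσ'⟩ : A.decompositionSubgroup K) =
      (⟨σ, hσ⟩ : A.decompositionSubgroup K)⁻¹ * ⟨σ', hσ'⟩ := rfl
  rw [this, mul_smul, inv_smul_eq_iff, h1, h2]

open scoped Pointwise in
/-- Frobenius elements at a conjugate place are the conjugates. -/
theorem isFrobeniusAt_conj {σ : L ≃ₐ[K] L} {q : ℕ} (h : A.IsFrobeniusAt σ q) (g : L ≃ₐ[K] L) :
    (g • A).IsFrobeniusAt (g * σ * g⁻¹) q := by
  obtain ⟨hσ, h1⟩ := h
  have hσA : σ • A = A := hσ
  have hd : g * σ * g⁻¹ ∈ (g • A).decompositionSubgroup K := by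
    change (g * σ * g⁻¹) • g • A = g • A
    rw [smul_smul, inv_mul_cancel_right, mul_smul, hσA]
  refine ⟨hd, fun x => ?_⟩
  obtain ⟨⟨y, hy⟩, rfl⟩ := IsLocalRing.residue_surjective x
  obtain ⟨z, hz, rfl⟩ := (ValuationSubring.mem_smul_pointwise_iff_exists _ _ _).1 hy
  have h2 := h1 (IsLocalRing.residue A ⟨z, hz⟩)
  rw [← IsLocalRing.ResidueField.residue_smul, ← map_pow, ← sub_eq_zero, ← map_sub,
    IsLocalRing.residue_eq_zero_iff, ← ValuationSubring.coe_mem_nonunits_iff] at h2
  rw [← IsLocalRing.ResidueField.residue_smul, ← map_pow, ← sub_eq_zero, ← map_sub,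
    IsLocalRing.residue_eq_zero_iff, ← ValuationSubring.coe_mem_nonunits_iff]
  have h3 : ∀ w : L, w ∈ A.nonunits → g • w ∈ (g • A).nonunits := by
    intro w hw
    rw [ValuationSubring.mem_nonunits_iff_or] at hw ⊢
    refine hw.imp (fun h => (smul_eq_zero_iff_eq g).2 h) fun h h' => h ?_
    rw [← smul_inv'', ValuationSubring.smul_mem_pointwise_smul_iff] at h'
    exact h'
  convert h3 _ h2 using 1
  simp only [AddSubgroupClass.coe_sub, SubmonoidClass.coe_pow, smul_sub, smul_pow',
    AlgEquiv.smul_def]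
  congr 1
  change (g * σ * g⁻¹) (g z) = g (σ z)
  simp [AlgEquiv.mul_apply]

end Inertia

end Fermat.Agent.Frobenius
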